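import Fermat.Agent.S31x.H16_Burnside

/-!
# S31, algebra core, part 2 (helper16): the trace pairing over a local ring

* `mat_core`  : matrices `M g` over a local ring `T` whose reductions span `M₂(F)`; a matrix `c`
  with `trace (M g * c) = 0` for all `g` vanishes (determinant argument, no Nakayama).
* `alg_core`  : `ρ : G →* End_T V`, `V` free of rank two, residually absolutely irreducible (in the
  tensor spelling of the prelude); `u` with `trace (ρ g * u) = 0` for all `g` vanishes.
* `rho_eq_one_of_trace` : `trace ρ (g τ) = trace ρ g` for all `g` implies `ρ τ = 1`.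

Mathlib only.
-/

set_option autoImplicit false

open scoped TensorProduct

namespace Fermat.Agent.S31x.H16

section MatCore

variable {T : Type*} [CommRing T] [IsLocalRing T] {F : Type*} [Field F] {G : Type*}

/-- Flattening a `2 × 2` matrix. -/
def flat2 (F : Type*) [Field F] : Matrix (Fin 2) (Fin 2) F →ₗ[F] (Fin 2 × Fin 2 → F) where
  toFun A := fun ij => A ij.1 ij.2
  map_add' _ _ := rfl
  map_smul' _ _ := rfl

theorem flat2_surjective (F : Type*) [Field F] : Function.Surjective (flat2 F) := by
  intro y
  exact ⟨Matrix.of fun i j => y (i, j), rfl⟩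

theorem mat_core (φ : T →+* F) (hφ : ∀ t ∈ IsLocalRing.maximalIdeal T, φ t = 0)
    (M : G → Matrix (Fin 2) (Fin 2) T)
    (hspan : Submodule.span F (Set.range fun g => (M g).map φ) = ⊤)
    (c : Matrix (Fin 2) (Fin 2) T) (hc : ∀ g, Matrix.trace (M g * c) = 0) : c = 0 := by
  classical
  -- the flattened family
  set y : G → (Fin 2 × Fin 2 → F) := fun g => flat2 F ((M g).map φ) with hy
  have hyspan : Submodule.span F (Set.range y) = ⊤ := by
    have h1 : Set.range y = flat2 F '' (Set.range fun g => (M g).map φ) := by
      rw [← Set.range_comp]; rfl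
    rw [h1, ← Submodule.map_span, hspan, Submodule.map_top, LinearMap.range_eq_top]
    exact flat2_surjective F
  obtain ⟨κ, a, -, hsp, hli⟩ := exists_linearIndependent' F y
  rw [hyspan] at hsp
  let bas : Module.Basis κ F (Fin 2 × Fin 2 → F) := Module.Basis.mk hli hsp.ge
  have hfin : Finite κ := Module.Finite.finite_basis bas
  have hft : Fintype κ := Fintype.ofFinite κ
  have hcard : Fintype.card (Fin 2 × Fin 2) = Fintype.card κ := by
    rw [← Module.finrank_eq_card_basis bas, Module.finrank_fintype_fun_eq_card]
  let ε : Fin 2 × Fin 2 ≃ κ := Fintype.equivOfCardEq hcard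
  -- the matrix of the system
  set A : Matrix (Fin 2 × Fin 2) (Fin 2 × Fin 2) T :=
    Matrix.of fun i j => M (a (ε i)) j.1 j.2 with hA
  have hrow : (A.map φ).row = y ∘ a ∘ ε := by
    funext i j
    rfl
  have hliA : LinearIndependent F (A.map φ).row := by
    rw [hrow]
    exact hli.comp ε ε.injective
  have hunitF : IsUnit (A.map φ).det :=
    (Matrix.isUnit_iff_isUnit_det _).mp (Matrix.linearIndependent_rows_iff_isUnit.mp hliA)
  have hdetF : (A.map φ).det = φ A.det := by
    rw [RingHom.map_det]; rfl
  have hunit : IsUnit A.det := by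
    by_contra hnu
    have hm : A.det ∈ IsLocalRing.maximalIdeal T := (IsLocalRing.mem_maximalIdeal _).mpr hnu
    rw [hdetF, hφ _ hm] at hunitF
    exact not_isUnit_zero hunitF
  -- the vector of unknowns
  set cv : Fin 2 × Fin 2 → T := fun j => c j.2 j.1 with hcv
  have hmul : A.mulVec cv = 0 := by
    funext i
    have h1 := hc (a (ε i))
    rw [Matrix.trace_fin_two, Matrix.mul_apply, Matrix.mul_apply, Fin.sum_univ_two,
      Fin.sum_univ_two] at h1
    rw [Matrix.mulVec, dotProduct, Fintype.sum_prod_type, Fin.sum_univ_two, Fin.sum_univ_two,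
      Fin.sum_univ_two, Pi.zero_apply]
    simp only [hA, hcv, Matrix.of_apply]
    rw [← h1]
  have hcv0 : cv = 0 := by
    have h1 := congrArg (A⁻¹.mulVec) hmul
    rwa [Matrix.mulVec_mulVec, Matrix.nonsing_inv_mul _ hunit, Matrix.one_mulVec,
      Matrix.mulVec_zero] at h1
  ext i j
  exact congrFun hcv0 (j, i)

end MatCore

section AlgCore

variable {T : Type*} [CommRing T] [IsLocalRing T] {V : Type*} [AddCommGroup V] [Module T V]
  [Module.Free T V] [Module.Finite T V] {G : Type*} [Group G]

/-- The double base change of a representation, as a monoid homomorphism. -/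
noncomputable def rhoBar (ρ : G →* Module.End T V) :
    G →* Module.End (AlgebraicClosure (IsLocalRing.ResidueField T))
      (AlgebraicClosure (IsLocalRing.ResidueField T) ⊗[IsLocalRing.ResidueField T]
        (IsLocalRing.ResidueField T ⊗[T] V)) where
  toFun g := ((ρ g).baseChange (IsLocalRing.ResidueField T)).baseChange
    (AlgebraicClosure (IsLocalRing.ResidueField T))
  map_one' := by rw [map_one, LinearMap.baseChange_one, LinearMap.baseChange_one]
  map_mul' g h := by rw [map_mul, LinearMap.baseChange_mul, LinearMap.baseChange_mul]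

omit [Module.Free T V] [Module.Finite T V] in
theorem rhoBar_apply (ρ : G →* Module.End T V) (g : G) :
    rhoBar ρ g = ((ρ g).baseChange (IsLocalRing.ResidueField T)).baseChange
      (AlgebraicClosure (IsLocalRing.ResidueField T)) := rfl

theorem alg_core (hV : Module.finrank T V = 2) (ρ : G →* Module.End T V)
    (hirr : ∀ U : Submodule (AlgebraicClosure (IsLocalRing.ResidueField T))
        (AlgebraicClosure (IsLocalRing.ResidueField T) ⊗[IsLocalRing.ResidueField T]
          (IsLocalRing.ResidueField T ⊗[T] V)),
      (∀ g, ∀ x ∈ U, ((ρ g).baseChange (IsLocalRing.ResidueField T)).baseChange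
        (AlgebraicClosure (IsLocalRing.ResidueField T)) x ∈ U) → U = ⊥ ∨ U = ⊤)
    (u : Module.End T V) (hu : ∀ g, LinearMap.trace T V (ρ g * u) = 0) : u = 0 := by
  classical
  let e : Module.Basis (Fin 2) T V := Module.finBasisOfFinrankEq T V hV
  let e₁ := Algebra.TensorProduct.basis (IsLocalRing.ResidueField T) e
  let e₂ := Algebra.TensorProduct.basis (AlgebraicClosure (IsLocalRing.ResidueField T)) e₁
  have hW : Module.finrank (AlgebraicClosure (IsLocalRing.ResidueField T))
      (AlgebraicClosure (IsLocalRing.ResidueField T) ⊗[IsLocalRing.ResidueField T]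
        (IsLocalRing.ResidueField T ⊗[T] V)) = 2 := by
    rw [Module.finrank_eq_card_basis e₂, Fintype.card_fin]
  have hB := burnside_two hW (rhoBar ρ) hirr
  set φ : T →+* AlgebraicClosure (IsLocalRing.ResidueField T) :=
    (algebraMap (IsLocalRing.ResidueField T) (AlgebraicClosure (IsLocalRing.ResidueField T))).comp
      (algebraMap T (IsLocalRing.ResidueField T)) with hφ
  have hφ0 : ∀ t ∈ IsLocalRing.maximalIdeal T, φ t = 0 := by
    intro t ht
    rw [hφ, RingHom.comp_apply, IsLocalRing.ResidueField.algebraMap_eq,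
      (IsLocalRing.residue_eq_zero_iff t).mpr ht, map_zero]
  have hmat : ∀ g, LinearMap.toMatrix e₂ e₂ (rhoBar ρ g) = (LinearMap.toMatrix e e (ρ g)).map φ := by
    intro g
    rw [rhoBar_apply, LinearMap.toMatrix_baseChange, LinearMap.toMatrix_baseChange,
      Matrix.map_map]
    rfl
  have hspan : Submodule.span (AlgebraicClosure (IsLocalRing.ResidueField T))
      (Set.range fun g => (LinearMap.toMatrix e e (ρ g)).map φ) = ⊤ := by
    have h1 : (Set.range fun g => (LinearMap.toMatrix e e (ρ g)).map φ) =
        (LinearMap.toMatrix e₂ e₂) '' (Set.range (rhoBar ρ)) := by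
      rw [← Set.range_comp]
      congr 1
      funext g
      exact (hmat g).symm
    rw [h1]
    have h2 := Submodule.map_span (LinearMap.toMatrix e₂ e₂).toLinearMap (Set.range (rhoBar ρ))
    rw [hB, Submodule.map_top, LinearMap.range_eq_top.mpr (LinearMap.toMatrix e₂ e₂).surjective]
      at h2
    exact h2.symm
  have hc : ∀ g, Matrix.trace (LinearMap.toMatrix e e (ρ g) * LinearMap.toMatrix e e u) = 0 := by
    intro g
    rw [← LinearMap.toMatrix_mul, ← LinearMap.trace_eq_matrix_trace T e]
    exact hu g
  have h0 := mat_core φ hφ0 (fun g => LinearMap.toMatrix e e (ρ g)) hspan _ hc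
  exact (LinearMap.toMatrix e e).map_eq_zero_iff.mp h0

/-- **(ALG)** if the trace of `ρ` is invariant under right translation by `τ`, then
`ρ τ = 1`. -/
theorem rho_eq_one_of_trace (hV : Module.finrank T V = 2) (ρ : G →* Module.End T V)
    (hirr : ∀ U : Submodule (AlgebraicClosure (IsLocalRing.ResidueField T))
        (AlgebraicClosure (IsLocalRing.ResidueField T) ⊗[IsLocalRing.ResidueField T]
          (IsLocalRing.ResidueField T ⊗[T] V)),
      (∀ g, ∀ x ∈ U, ((ρ g).baseChange (IsLocalRing.ResidueField T)).baseChange
        (AlgebraicClosure (IsLocalRing.ResidueField T)) x ∈ U) → U = ⊥ ∨ U = ⊤)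
    (τ : G) (hτ : ∀ g, LinearMap.trace T V (ρ (g * τ)) = LinearMap.trace T V (ρ g)) :
    ρ τ = 1 := by
  have h := alg_core hV ρ hirr (ρ τ - 1) (fun g => by
    rw [mul_sub, mul_one, map_sub, ← map_mul, hτ g, sub_self])
  exact sub_eq_zero.mp h

end AlgCore

end Fermat.Agent.S31x.H16
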