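import Mathlib
import Fermat.Prelude.Def_CuspForm_HeckeGaloisRepDatum

/-!
# S31, interface (helper16): the Dickson recursion and the Hecke congruence (HC)

* `dk a b k`     : the Dickson recursion `D₀ = 2`, `D₁ = a`, `D_{k+2} = a D_{k+1} - b D_k`
                   (`dk_eq_dickson`: it is `(Polynomial.dickson 1 b k).eval a`);
* `StHC N p S q` : **(HC)** the Hecke congruence at one prime `q`, a statement about
                   `heckeAlgebra N 2 S` alone;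
* `StHCd p N S`  : **(HC)** in the spelling with `Polynomial.dickson` and `Ideal.span`, for all
                   primes `q ∉ S` at once;
* `stHC_of_stHCd` : the bridge.
-/

set_option autoImplicit false

open Polynomial

namespace Fermat.Agent.S31x.H16

/-- The Dickson recursion. -/
def dk {R : Type*} [CommRing R] (a b : R) : ℕ → R
  | 0 => 2
  | 1 => a
  | (k + 2) => a * dk a b (k + 1) - b * dk a b k

theorem dk_zero {R : Type*} [CommRing R] (a b : R) : dk a b 0 = 2 := rfl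

theorem dk_one {R : Type*} [CommRing R] (a b : R) : dk a b 1 = a := rfl

theorem dk_succ_succ {R : Type*} [CommRing R] (a b : R) (k : ℕ) :
    dk a b (k + 2) = a * dk a b (k + 1) - b * dk a b k := rfl

theorem map_dk {R R' : Type*} [CommRing R] [CommRing R'] (f : R →+* R') (a b : R) (k : ℕ) :
    f (dk a b k) = dk (f a) (f b) k := by
  induction k using Nat.strong_induction_on with
  | _ k ih =>
    match k, ih with
    | 0, _ => rw [dk_zero, dk_zero, map_ofNat]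
    | 1, _ => rw [dk_one, dk_one]
    | (k + 2), ih =>
      rw [dk_succ_succ, dk_succ_succ, map_sub, map_mul, map_mul, ih (k + 1) (by omega),
        ih k (by omega)]

/-- `dk` is the evaluation of Mathlib's Dickson polynomial of the first kind. -/
theorem dk_eq_dickson {R : Type*} [CommRing R] (a b : R) (k : ℕ) :
    dk a b k = (Polynomial.dickson 1 b k).eval a := by
  induction k using Nat.strong_induction_on with
  | _ k ih =>
    match k, ih with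
    | 0, _ =>
      rw [dk_zero, Polynomial.dickson_zero]
      simp only [eval_sub, eval_ofNat, Nat.cast_one]
      norm_num
    | 1, _ => rw [dk_one, Polynomial.dickson_one, eval_X]
    | (k + 2), ih =>
      rw [dk_succ_succ, Polynomial.dickson_add_two, eval_sub, eval_mul, eval_mul, eval_X, eval_C,
        ← ih (k + 1) (by omega), ← ih k (by omega)]

/-- **(HC)** the Hecke congruence at the prime `q`: modulo `p ^ m`, the Dickson value
`D_k(T_ℓ, ℓ)` attached to a Frobenius power `σ ^ k` depends only on the restriction of `σ ^ k`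
to a suitable number field `K`, and only up to inertia at `q`. -/
def StHC (N p : ℕ) [NeZero N] (S : Finset ℕ) (q : ℕ) : Prop :=
  ∀ m : ℕ, ∃ K : IntermediateField ℚ (AlgebraicClosure ℚ), FiniteDimensional ℚ K ∧
    ∀ P : ValuationSubring (AlgebraicClosure ℚ), P.LiesOverPrime q →
    ∀ τ ∈ P.inertiaSubgroupIn ℚ, ∀ g : AlgebraicClosure ℚ ≃ₐ[ℚ] AlgebraicClosure ℚ,
    ∀ (ℓ : ℕ) (hℓ : ℓ.Prime) (hℓN : ¬ ℓ ∣ N) (hℓS : ℓ ∉ (↑S : Set ℕ))
      (A : ValuationSubring (AlgebraicClosure ℚ))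
      (σ : AlgebraicClosure ℚ ≃ₐ[ℚ] AlgebraicClosure ℚ) (k : ℕ),
      A.LiesOverPrime ℓ → A.IsFrobeniusAt σ ℓ → (∀ x ∈ K, g x = (σ ^ k) x) →
    ∀ (ℓ' : ℕ) (hℓ' : ℓ'.Prime) (hℓ'N : ¬ ℓ' ∣ N) (hℓ'S : ℓ' ∉ (↑S : Set ℕ))
      (A' : ValuationSubring (AlgebraicClosure ℚ))
      (σ' : AlgebraicClosure ℚ ≃ₐ[ℚ] AlgebraicClosure ℚ) (k' : ℕ),
      A'.LiesOverPrime ℓ' → A'.IsFrobeniusAt σ' ℓ' → (∀ x ∈ K, (g * τ) x = (σ' ^ k') x) →
      ∃ t : CuspForm.heckeAlgebra N 2 (↑S : Set ℕ),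
        dk (CuspForm.heckeAlgebra.T hℓ hℓN hℓS) ((ℓ : ℕ) : CuspForm.heckeAlgebra N 2 (↑S : Set ℕ)) k
          - dk (CuspForm.heckeAlgebra.T hℓ' hℓ'N hℓ'S)
              ((ℓ' : ℕ) : CuspForm.heckeAlgebra N 2 (↑S : Set ℕ)) k'
          = (p : CuspForm.heckeAlgebra N 2 (↑S : Set ℕ)) ^ m * t

/-- **(HC)**, the spelling with `Polynomial.dickson` and `Ideal.span`, all `q ∉ S` at once. -/
def StHCd (p N : ℕ) [NeZero N] (S : Finset ℕ) : Prop :=
  ∀ m : ℕ, ∃ K : IntermediateField ℚ (AlgebraicClosure ℚ), FiniteDimensional ℚ K ∧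
    ∀ (q : ℕ), q.Prime → q ∉ S →
    ∀ B : ValuationSubring (AlgebraicClosure ℚ), B.LiesOverPrime q →
    ∀ τ ∈ B.inertiaSubgroupIn ℚ, ∀ g : AlgebraicClosure ℚ ≃ₐ[ℚ] AlgebraicClosure ℚ,
    ∀ (ℓ : ℕ) (hℓ : ℓ.Prime) (hℓN : ¬ ℓ ∣ N) (hℓS : ℓ ∉ (S : Set ℕ))
      (A : ValuationSubring (AlgebraicClosure ℚ)), A.LiesOverPrime ℓ →
    ∀ σ : AlgebraicClosure ℚ ≃ₐ[ℚ] AlgebraicClosure ℚ, A.IsFrobeniusAt σ ℓ →
    ∀ k : ℕ, (∀ x ∈ K, g x = (σ ^ k) x) →
    ∀ (ℓ' : ℕ) (hℓ' : ℓ'.Prime) (hℓ'N : ¬ ℓ' ∣ N) (hℓ'S : ℓ' ∉ (S : Set ℕ))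
      (A' : ValuationSubring (AlgebraicClosure ℚ)), A'.LiesOverPrime ℓ' →
    ∀ σ' : AlgebraicClosure ℚ ≃ₐ[ℚ] AlgebraicClosure ℚ, A'.IsFrobeniusAt σ' ℓ' →
    ∀ k' : ℕ, (∀ x ∈ K, (g * τ) x = (σ' ^ k') x) →
      (Polynomial.dickson 1 ((ℓ : ℕ) : CuspForm.heckeAlgebra N 2 (S : Set ℕ)) k).eval
          (CuspForm.heckeAlgebra.T hℓ hℓN hℓS)
        - (Polynomial.dickson 1 ((ℓ' : ℕ) : CuspForm.heckeAlgebra N 2 (S : Set ℕ)) k').eval
          (CuspForm.heckeAlgebra.T hℓ' hℓ'N hℓ'S)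
        ∈ Ideal.span {((p : ℕ) : CuspForm.heckeAlgebra N 2 (S : Set ℕ)) ^ m}

/-- The bridge between the two spellings of (HC). -/
theorem stHC_of_stHCd {p N : ℕ} [NeZero N] {S : Finset ℕ} (h : StHCd p N S) (q : ℕ)
    (hq : q.Prime) (hqS : q ∉ S) : StHC N p S q := by
  intro m
  obtain ⟨K, hK, hm⟩ := h m
  refine ⟨K, hK, fun P hP τ hτ g ℓ hℓ hℓN hℓS A σ k hA hσ hg ℓ' hℓ' hℓ'N hℓ'S A' σ' k' hA' hσ'
    hg' => ?_⟩
  have h1 := hm q hq hqS P hP τ hτ g ℓ hℓ hℓN hℓS A hA σ hσ k hg ℓ' hℓ' hℓ'N hℓ'S A' hA' σ' hσ'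
    k' hg'
  rw [Ideal.mem_span_singleton'] at h1
  obtain ⟨t, ht⟩ := h1
  exact ⟨t, by rw [dk_eq_dickson, dk_eq_dickson, ← ht, mul_comm]⟩

end Fermat.Agent.S31x.H16
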