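import Fermat.Agent.S42x.Dens.H16_Dens
import Fermat.Agent.S31x.H16_Alg
import Fermat.Agent.S31x.H16_Defs

/-!
# S31, formal top (helper16): S31 from the Hecke congruence (HC)

* `trace_pow_eq_dk`  : Cayley–Hamilton in rank two, `trace (f ^ k) = dk a b k`;
* `trace_sub_mem`    : adic continuity on traces;
* `unramified_of_hc` : the statement of S31 from `StHC N p S q` (`H16_Defs`);
* `s31_of_hcd`       : the statement of S31 from `StHCd p N S`.

Inputs: (ALG) `rho_eq_one_of_trace`, (DENS) `Fermat.Agent.S42x.Dens.H16.dens`, Cayley–Hamilton.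
-/

set_option autoImplicit false

open Polynomial

namespace Fermat.Agent.S31x.H16

section Trace

variable {T : Type*} [CommRing T] {V : Type*} [AddCommGroup V] [Module T V]

/-- The coordinates of an element of `I • ⊤` lie in `I`. -/
theorem repr_mem_of_mem_smul_top {ι : Type*} (b : Module.Basis ι T V) (I : Ideal T) (x : V)
    (hx : x ∈ I • (⊤ : Submodule T V)) (i : ι) : b.repr x i ∈ I := by
  induction hx using Submodule.smul_induction_on' with
  | smul a ha w _ =>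
    rw [map_smul, Finsupp.smul_apply, smul_eq_mul]
    exact I.mul_mem_right _ ha
  | add y _ z _ hy hz =>
    rw [map_add, Finsupp.add_apply]
    exact I.add_mem hy hz

/-- A linear map preserves `I • ⊤`. -/
theorem map_mem_smul_top (I : Ideal T) (f : Module.End T V) (x : V)
    (hx : x ∈ I • (⊤ : Submodule T V)) : f x ∈ I • (⊤ : Submodule T V) := by
  induction hx using Submodule.smul_induction_on' with
  | smul a ha w _ =>
    rw [map_smul]
    exact Submodule.smul_mem_smul ha Submodule.mem_top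
  | add y _ z _ hy hz =>
    rw [map_add]
    exact Submodule.add_mem _ hy hz

variable [Module.Free T V] [Module.Finite T V]

/-- The trace of an endomorphism with values in `I • ⊤` lies in `I`. -/
theorem trace_mem_of_forall_mem (I : Ideal T) (f : Module.End T V)
    (hf : ∀ v, f v ∈ I • (⊤ : Submodule T V)) : LinearMap.trace T V f ∈ I := by
  classical
  let b := Module.Free.chooseBasis T V
  rw [LinearMap.trace_eq_matrix_trace T b, Matrix.trace]
  refine I.sum_mem fun i _ => ?_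
  rw [Matrix.diag_apply, LinearMap.toMatrix_apply]
  exact repr_mem_of_mem_smul_top b I _ (hf _) i

/-- Cayley–Hamilton in rank two: the traces of the powers are the Dickson values. -/
theorem trace_pow_eq_dk [Nontrivial T] (hV : Module.finrank T V = 2) (f : Module.End T V)
    (a b : T) (hcp : f.charpoly = X ^ 2 - C a * X + C b) (k : ℕ) :
    LinearMap.trace T V (f ^ k) = dk a b k := by
  have hCH : f * f - a • f + b • (1 : Module.End T V) = 0 := by
    have h := LinearMap.aeval_self_charpoly f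
    rw [hcp] at h
    simpa only [map_add, map_sub, map_mul, map_pow, aeval_X, aeval_C,
      Algebra.algebraMap_eq_smul_one, smul_mul_assoc, one_mul, pow_two] using h
  have htr : LinearMap.trace T V f = a := by
    let e := Module.finBasisOfFinrankEq T V hV
    have h1 : f.charpoly = X ^ 2 - C (LinearMap.trace T V f) * X + C (LinearMap.det f) := by
      rw [← LinearMap.charpoly_toMatrix f e, Matrix.charpoly_fin_two,
        LinearMap.trace_eq_matrix_trace T e f, LinearMap.det_toMatrix e f]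
    have h2 := congrArg (fun P : T[X] => P.coeff 1) (h1.symm.trans hcp)
    simp only [coeff_add, coeff_sub, coeff_X_pow, coeff_C_mul, coeff_X_one, coeff_C] at h2
    norm_num at h2
    exact h2
  have hrec : ∀ k : ℕ, f ^ (k + 2) = a • f ^ (k + 1) - b • f ^ k := by
    intro k
    have h1 : f ^ (k + 2) = f ^ k * (f * f) := by rw [← pow_two, ← pow_add]
    have h2 : f * f = a • f - b • (1 : Module.End T V) := by
      rw [← sub_eq_zero, ← hCH]; abel
    rw [h1, h2, mul_sub, mul_smul_comm, mul_smul_comm, mul_one, ← pow_succ]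
  induction k using Nat.strong_induction_on with
  | _ k ih =>
    match k, ih with
    | 0, _ =>
      rw [pow_zero, LinearMap.trace_one, hV, dk_zero]; norm_num
    | 1, _ => rw [pow_one, htr, dk_one]
    | (k + 2), ih =>
      rw [hrec, map_sub, map_smul, map_smul, ih (k + 1) (by omega), ih k (by omega),
        dk_succ_succ, smul_eq_mul, smul_eq_mul]

end Trace

section Top

variable {p : ℕ} {N : ℕ} [NeZero N] {S : Finset ℕ}
  {𝒪 : Type} [CommRing 𝒪] [IsDomain 𝒪] [IsDiscreteValuationRing 𝒪]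
  [IsAdicComplete (IsLocalRing.maximalIdeal 𝒪) 𝒪]
  {θ : CuspForm.heckeAlgebra N 2 (↑S : Set ℕ) →+* IsLocalRing.ResidueField 𝒪}
  {T : Type} [CommRing T] [IsLocalRing T] [IsNoetherianRing T]
  [IsAdicComplete (IsLocalRing.maximalIdeal T) T] [Algebra 𝒪 T] [IsLocalHom (algebraMap 𝒪 T)]
  [Module.Finite 𝒪 T] [Module.Free 𝒪 T]

omit [IsNoetherianRing T] [IsAdicComplete (IsLocalRing.maximalIdeal T) T] in
/-- Adic continuity: the traces of two elements which agree on the level-`m` field agree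
modulo `𝔪 ^ m`. -/
theorem trace_sub_mem (ρ : GaloisRepAdic T) (m : ℕ)
    (L : IntermediateField ℚ (AlgebraicClosure ℚ))
    (hL : ∀ σ : AlgebraicClosure ℚ ≃ₐ[ℚ] AlgebraicClosure ℚ, (∀ x ∈ L, σ x = x) →
      ∀ v : ρ.V, ρ.ρ σ v - v ∈ (IsLocalRing.maximalIdeal T ^ m) • (⊤ : Submodule T ρ.V))
    (g g' : AlgebraicClosure ℚ ≃ₐ[ℚ] AlgebraicClosure ℚ) (hgg' : ∀ x ∈ L, g x = g' x) :
    LinearMap.trace T ρ.V (ρ.ρ g) - LinearMap.trace T ρ.V (ρ.ρ g') ∈
      IsLocalRing.maximalIdeal T ^ m := by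
  have hfix : ∀ x ∈ L, (g'⁻¹ * g) x = x := by
    intro x hx
    change g'⁻¹ (g x) = x
    rw [hgg' x hx]
    exact g'.symm_apply_apply x
  have hg : ρ.ρ g = ρ.ρ g' * ρ.ρ (g'⁻¹ * g) := by
    rw [← map_mul, mul_inv_cancel_left]
  have hdiff : ρ.ρ g - ρ.ρ g' = ρ.ρ g' * (ρ.ρ (g'⁻¹ * g) - 1) := by
    rw [mul_sub, mul_one, ← hg]
  rw [← map_sub, hdiff]
  refine trace_mem_of_forall_mem _ _ fun v => ?_
  rw [Module.End.mul_apply]
  refine map_mem_smul_top _ _ _ ?_
  rw [LinearMap.sub_apply, Module.End.one_apply]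
  exact hL _ hfix v

/-- **S31 from (HC).** -/
theorem unramified_of_hc (hp𝒪 : (p : 𝒪) ∈ IsLocalRing.maximalIdeal 𝒪)
    (hNS : ∀ q : ℕ, q.Prime → q ∣ N → q ∈ S)
    (H : CuspForm.HeckeGaloisRepDatum N (↑S : Set ℕ) 𝒪 θ T)
    (q : ℕ) (hHC : StHC N p S q) :
    H.ρ.IsUnramifiedAt q := by
  intro P hP τ hτ
  have hpT : (p : T) ∈ IsLocalRing.maximalIdeal T := by
    rw [IsLocalRing.mem_maximalIdeal, mem_nonunits_iff]
    intro hu
    have h1 : IsUnit (algebraMap 𝒪 T (p : 𝒪)) := by rwa [map_natCast]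
    have h2 : IsUnit (p : 𝒪) := isUnit_of_map_unit (algebraMap 𝒪 T) _ h1
    exact (IsLocalRing.mem_maximalIdeal _).mp hp𝒪 h2
  refine rho_eq_one_of_trace H.ρ.finrank_eq H.ρ.ρ H.residual_absIrr τ fun g => ?_
  -- the difference of the traces lies in every power of the maximal ideal
  have key : ∀ m : ℕ, LinearMap.trace T H.ρ.V (H.ρ.ρ (g * τ)) - LinearMap.trace T H.ρ.V (H.ρ.ρ g)
      ∈ IsLocalRing.maximalIdeal T ^ m := by
    intro m
    obtain ⟨K, hK, hHCm⟩ := hHC m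
    obtain ⟨L, hLfin, hL⟩ := H.ρ.isAdicContinuous m
    have : FiniteDimensional ℚ ↥(K ⊔ L) := IntermediateField.finiteDimensional_sup K L
    obtain ⟨ℓ, A, σ, k, hℓ, hℓS, hA, hσ, hg⟩ := Fermat.Agent.S42x.Dens.H16.dens (K ⊔ L) S g
    obtain ⟨ℓ', A', σ', k', hℓ', hℓ'S, hA', hσ', hg'⟩ :=
      Fermat.Agent.S42x.Dens.H16.dens (K ⊔ L) S (g * τ)
    have hℓN : ¬ ℓ ∣ N := fun h => hℓS (hNS ℓ hℓ h)
    have hℓ'N : ¬ ℓ' ∣ N := fun h => hℓ'S (hNS ℓ' hℓ' h)
    have hℓS' : ℓ ∉ (↑S : Set ℕ) := fun h => hℓS (Finset.mem_coe.mp h)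
    have hℓ'S' : ℓ' ∉ (↑S : Set ℕ) := fun h => hℓ'S (Finset.mem_coe.mp h)
    obtain ⟨t, ht⟩ := hHCm P hP τ hτ g ℓ hℓ hℓN hℓS' A σ k hA hσ
      (fun x hx => hg x ((le_sup_left : K ≤ K ⊔ L) hx)) ℓ' hℓ' hℓ'N hℓ'S' A' σ' k' hA' hσ'
      (fun x hx => hg' x ((le_sup_left : K ≤ K ⊔ L) hx))
    -- continuity
    have c1 := trace_sub_mem H.ρ m L hL g (σ ^ k)
      (fun x hx => hg x ((le_sup_right : L ≤ K ⊔ L) hx))
    have c2 := trace_sub_mem H.ρ m L hL (g * τ) (σ' ^ k')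
      (fun x hx => hg' x ((le_sup_right : L ≤ K ⊔ L) hx))
    -- Cayley–Hamilton
    have d1 : LinearMap.trace T H.ρ.V (H.ρ.ρ (σ ^ k)) =
        H.π (dk (CuspForm.heckeAlgebra.T hℓ hℓN hℓS')
          ((ℓ : ℕ) : CuspForm.heckeAlgebra N 2 (↑S : Set ℕ)) k) := by
      rw [map_pow, map_dk, map_natCast]
      exact trace_pow_eq_dk H.ρ.finrank_eq _ _ _ (H.charpoly_frob ℓ hℓ hℓN hℓS' A hA σ hσ) k
    have d2 : LinearMap.trace T H.ρ.V (H.ρ.ρ (σ' ^ k')) =
        H.π (dk (CuspForm.heckeAlgebra.T hℓ' hℓ'N hℓ'S')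
          ((ℓ' : ℕ) : CuspForm.heckeAlgebra N 2 (↑S : Set ℕ)) k') := by
      rw [map_pow, map_dk, map_natCast]
      exact trace_pow_eq_dk H.ρ.finrank_eq _ _ _ (H.charpoly_frob ℓ' hℓ' hℓ'N hℓ'S' A' hA' σ' hσ') k'
    -- the Hecke congruence
    have e1 : H.π (dk (CuspForm.heckeAlgebra.T hℓ hℓN hℓS')
          ((ℓ : ℕ) : CuspForm.heckeAlgebra N 2 (↑S : Set ℕ)) k) -
        H.π (dk (CuspForm.heckeAlgebra.T hℓ' hℓ'N hℓ'S')
          ((ℓ' : ℕ) : CuspForm.heckeAlgebra N 2 (↑S : Set ℕ)) k') ∈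
        IsLocalRing.maximalIdeal T ^ m := by
      rw [← map_sub, ht, map_mul, map_pow, map_natCast]
      exact Ideal.mul_mem_right _ _ (Ideal.pow_mem_pow hpT m)
    rw [d1] at c1
    rw [d2] at c2
    have e : LinearMap.trace T H.ρ.V (H.ρ.ρ (g * τ)) - LinearMap.trace T H.ρ.V (H.ρ.ρ g) =
        (LinearMap.trace T H.ρ.V (H.ρ.ρ (g * τ)) -
          H.π (dk (CuspForm.heckeAlgebra.T hℓ' hℓ'N hℓ'S')
            ((ℓ' : ℕ) : CuspForm.heckeAlgebra N 2 (↑S : Set ℕ)) k'))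
        - (H.π (dk (CuspForm.heckeAlgebra.T hℓ hℓN hℓS')
            ((ℓ : ℕ) : CuspForm.heckeAlgebra N 2 (↑S : Set ℕ)) k) -
          H.π (dk (CuspForm.heckeAlgebra.T hℓ' hℓ'N hℓ'S')
            ((ℓ' : ℕ) : CuspForm.heckeAlgebra N 2 (↑S : Set ℕ)) k'))
        - (LinearMap.trace T H.ρ.V (H.ρ.ρ g) -
          H.π (dk (CuspForm.heckeAlgebra.T hℓ hℓN hℓS')
            ((ℓ : ℕ) : CuspForm.heckeAlgebra N 2 (↑S : Set ℕ)) k)) := by ring
    rw [e]
    exact Ideal.sub_mem _ (Ideal.sub_mem _ c2 e1) c1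
  have hH : IsHausdorff (IsLocalRing.maximalIdeal T) T := inferInstance
  have h0 := hH.haus' _ (fun m => by
    rw [SModEq.zero, smul_eq_mul, Ideal.mul_top]
    exact key m)
  exact sub_eq_zero.mp h0

/-- **S31 from (HC)** in the `Polynomial.dickson` spelling: the frozen statement. -/
theorem s31_of_hcd (hHC : StHCd p N S) (_hp : p.Prime)
    (hp𝒪 : (p : 𝒪) ∈ IsLocalRing.maximalIdeal 𝒪) (_hpS : p ∈ S)
    (hNS : ∀ q : ℕ, q.Prime → q ∣ N → q ∈ S)
    (H : CuspForm.HeckeGaloisRepDatum N (↑S : Set ℕ) 𝒪 θ T)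
    (q : ℕ) (hq : q.Prime) (hqS : q ∉ S) :
    H.ρ.IsUnramifiedAt q :=
  unramified_of_hc hp𝒪 hNS H q (stHC_of_stHCd hHC q hq hqS)

end Top

end Fermat.Agent.S31x.H16
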