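import Mathlib

/-!
# S31, algebra core, part 1 (helper16): Burnside's theorem in dimension two

`burnside_two`: an irreducible representation of a group on a two-dimensional vector space over
an algebraically closed field spans the whole endomorphism algebra.  Mathlib only.
-/

set_option autoImplicit false

namespace Fermat.Agent.S31x.H16

section Burnside

variable {F : Type*} [Field F] {W : Type*} [AddCommGroup W] [Module F W]
  {G : Type*} [Group G]

/-- In an irreducible representation of dimension two no line is stable. -/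
theorem exists_not_mem_span (hW : Module.finrank F W = 2) (ρ : G →* Module.End F W)
    (hirr : ∀ U : Submodule F W, (∀ g, ∀ x ∈ U, ρ g x ∈ U) → U = ⊥ ∨ U = ⊤)
    (v : W) (hv : v ≠ 0) : ∃ g, ρ g v ∉ Submodule.span F {v} := by
  by_contra hcon
  simp only [not_exists, not_not] at hcon
  have hst : ∀ g, ∀ x ∈ Submodule.span F {v}, ρ g x ∈ Submodule.span F {v} := by
    intro g x hx
    obtain ⟨c, rfl⟩ := Submodule.mem_span_singleton.mp hx
    rw [map_smul]
    exact Submodule.smul_mem _ c (hcon g)
  rcases hirr _ hst with h | h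
  · exact hv ((Submodule.span_singleton_eq_bot).mp h)
  · have h1 : Module.finrank F (Submodule.span F {v}) = 1 := finrank_span_singleton hv
    rw [h, finrank_top, hW] at h1
    omega

/-- A basis from two vectors, the second not in the line of the first. -/
theorem exists_basis_pair (hW : Module.finrank F W = 2) (v₁ v₂ : W) (hv₁ : v₁ ≠ 0)
    (hv₂ : v₂ ∉ Submodule.span F {v₁}) :
    ∃ b : Module.Basis (Fin 2) F W, b 0 = v₁ ∧ b 1 = v₂ := by
  have hli : LinearIndependent F ![v₁, v₂] := by
    rw [LinearIndependent.pair_iff' hv₁]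
    intro a ha
    exact hv₂ (Submodule.mem_span_singleton.mpr ⟨a, ha⟩)
  have hcard : Fintype.card (Fin 2) = Module.finrank F W := by
    rw [hW, Fintype.card_fin]
  refine ⟨basisOfLinearIndependentOfCardEqFinrank hli hcard, ?_, ?_⟩
  · rw [coe_basisOfLinearIndependentOfCardEqFinrank]; rfl
  · rw [coe_basisOfLinearIndependentOfCardEqFinrank]; rfl

/-- **Burnside's theorem in dimension two.** -/
theorem burnside_two [IsAlgClosed F] (hW : Module.finrank F W = 2) (ρ : G →* Module.End F W)
    (hirr : ∀ U : Submodule F W, (∀ g, ∀ x ∈ U, ρ g x ∈ U) → U = ⊥ ∨ U = ⊤) :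
    Submodule.span F (Set.range ρ) = ⊤ := by
  classical
  have : Module.Finite F W := Module.finite_of_finrank_pos (by rw [hW]; norm_num)
  have : Nontrivial W := Module.nontrivial_of_finrank_pos (R := F) (by rw [hW]; norm_num)
  set B : Submodule F (Module.End F W) := Submodule.span F (Set.range ρ) with hB
  have hmem : ∀ g, ρ g ∈ B := fun g => Submodule.subset_span ⟨g, rfl⟩
  have hone : (1 : Module.End F W) ∈ B := by
    have := hmem 1
    rwa [map_one] at this
  have hleft : ∀ g, ∀ x ∈ B, ρ g * x ∈ B := by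
    intro g x hx
    induction hx using Submodule.span_induction with
    | mem y hy =>
      obtain ⟨h, rfl⟩ := hy
      rw [← map_mul]
      exact hmem _
    | zero => rw [mul_zero]; exact Submodule.zero_mem _
    | add y z _ _ hy hz => rw [mul_add]; exact Submodule.add_mem _ hy hz
    | smul c y _ hy => rw [mul_smul_comm]; exact Submodule.smul_mem _ c hy
  have hright : ∀ g, ∀ x ∈ B, x * ρ g ∈ B := by
    intro g x hx
    induction hx using Submodule.span_induction with
    | mem y hy =>
      obtain ⟨h, rfl⟩ := hy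
      rw [← map_mul]
      exact hmem _
    | zero => rw [zero_mul]; exact Submodule.zero_mem _
    | add y z _ _ hy hz => rw [add_mul]; exact Submodule.add_mem _ hy hz
    | smul c y _ hy => rw [smul_mul_assoc]; exact Submodule.smul_mem _ c hy
  -- a non-zero element `b` of `B` with a non-trivial kernel
  obtain ⟨v₀, hv₀⟩ := exists_ne (0 : W)
  obtain ⟨g₀, hg₀⟩ := exists_not_mem_span hW ρ hirr v₀ hv₀
  obtain ⟨μ, hμ⟩ := Module.End.exists_eigenvalue (ρ g₀)
  obtain ⟨v₁, hv₁⟩ := hμ.exists_hasEigenvector
  have hv₁0 : v₁ ≠ 0 := hv₁.2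
  set b : Module.End F W := ρ g₀ - μ • (1 : Module.End F W) with hb
  have hbB : b ∈ B := Submodule.sub_mem _ (hmem g₀) (Submodule.smul_mem _ μ hone)
  have hbv₁ : b v₁ = 0 := by
    rw [hb, LinearMap.sub_apply, LinearMap.smul_apply, Module.End.one_apply, hv₁.apply_eq_smul,
      sub_self]
  have hb0 : b ≠ 0 := by
    intro h0
    apply hg₀
    have h1 : b v₀ = 0 := by rw [h0, LinearMap.zero_apply]
    rw [hb, LinearMap.sub_apply, LinearMap.smul_apply, Module.End.one_apply, sub_eq_zero] at h1
    rw [h1]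
    exact Submodule.smul_mem _ μ (Submodule.mem_span_singleton_self v₀)
  -- the basis `v₁, v₂ = a v₁`
  obtain ⟨a, ha⟩ := exists_not_mem_span hW ρ hirr v₁ hv₁0
  obtain ⟨bv, hbv0, hbv1⟩ := exists_basis_pair hW v₁ (ρ a v₁) hv₁0 ha
  have hext : ∀ x y : Module.End F W, x v₁ = y v₁ → x (ρ a v₁) = y (ρ a v₁) → x = y := by
    intro x y h0 h1
    refine bv.ext fun i => ?_
    fin_cases i
    · change x (bv 0) = y (bv 0)
      rw [hbv0]; exact h0
    · change x (bv 1) = y (bv 1)
      rw [hbv1]; exact h1
  -- `w = b v₂ ≠ 0`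
  have hw0 : b (ρ a v₁) ≠ 0 := by
    intro h0
    apply hb0
    refine hext _ _ ?_ ?_
    · rw [hbv₁, LinearMap.zero_apply]
    · rw [h0, LinearMap.zero_apply]
  obtain ⟨a', ha'⟩ := exists_not_mem_span hW ρ hirr _ hw0
  obtain ⟨bw, hbw0, hbw1⟩ := exists_basis_pair hW _ (ρ a' (b (ρ a v₁))) hw0 ha'
  -- every endomorphism killing `v₁` lies in `B`
  have hL : ∀ x : Module.End F W, x v₁ = 0 → x ∈ B := by
    intro x hx
    have hrepr := bw.sum_repr (x (ρ a v₁))
    rw [Fin.sum_univ_two, hbw0, hbw1] at hrepr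
    have hxe : x = bw.repr (x (ρ a v₁)) 0 • b + bw.repr (x (ρ a v₁)) 1 • (ρ a' * b) := by
      refine hext _ _ ?_ ?_
      · rw [hx, LinearMap.add_apply, LinearMap.smul_apply, LinearMap.smul_apply,
          Module.End.mul_apply, hbv₁, smul_zero, LinearMap.map_zero (ρ a'), smul_zero, add_zero]
      · rw [LinearMap.add_apply, LinearMap.smul_apply, LinearMap.smul_apply,
          Module.End.mul_apply, hrepr]
    rw [hxe]
    exact Submodule.add_mem _ (Submodule.smul_mem _ _ hbB)
      (Submodule.smul_mem _ _ (hleft a' b hbB))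
  -- the general case
  rw [eq_top_iff]
  intro x _
  set x₂ : Module.End F W := bv.constr F ![x v₁, 0] with hx₂
  have hx₂0 : x₂ v₁ = x v₁ := by
    rw [hx₂, ← hbv0, Module.Basis.constr_basis]; rfl
  have hx₂1 : x₂ (ρ a v₁) = 0 := by
    rw [hx₂, ← hbv1, Module.Basis.constr_basis]; rfl
  have h1 : x - x₂ ∈ B := hL _ (by rw [LinearMap.sub_apply, hx₂0, sub_self])
  have h2 : x₂ * ρ a ∈ B := hL _ (by rw [Module.End.mul_apply, hx₂1])
  have h3 : x₂ ∈ B := by
    have := hright a⁻¹ _ h2
    rwa [mul_assoc, ← map_mul, mul_inv_cancel, map_one, mul_one] at this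
  have : x = (x - x₂) + x₂ := by abel
  rw [this]
  exact Submodule.add_mem _ h1 h3

end Burnside

end Fermat.Agent.S31x.H16
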