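import Fermat.Agent.S31x.H16_Burnside

/-!
# Burnside in dimension two over an arbitrary field (helper16)

`burnside_two_of_ker`: over ANY field, an irreducible two-dimensional representation whose span
contains a non-zero element with a non-trivial kernel spans the whole endomorphism algebra.
`burnside_two_of_invol`: the case of an involution `c` (`ρ c ≠ ± 1`, e.g. complex conjugation
with `det = -1`), characteristic `≠ 2` not needed.
Mathlib only.
-/

set_option autoImplicit false

namespace Fermat.Agent.S31x.H16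

section BurnsideKer

variable {F : Type*} [Field F] {W : Type*} [AddCommGroup W] [Module F W]
  {G : Type*} [Group G]

/-- **Burnside in dimension two, over any field**, from a non-zero element of the span with a
non-trivial kernel. -/
theorem burnside_two_of_ker (hW : Module.finrank F W = 2) (ρ : G →* Module.End F W)
    (hirr : ∀ U : Submodule F W, (∀ g, ∀ x ∈ U, ρ g x ∈ U) → U = ⊥ ∨ U = ⊤)
    (b : Module.End F W) (hbB : b ∈ Submodule.span F (Set.range ρ)) (hb0 : b ≠ 0)
    (v₁ : W) (hv₁0 : v₁ ≠ 0) (hbv₁ : b v₁ = 0) :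
    Submodule.span F (Set.range ρ) = ⊤ := by
  classical
  have : Module.Finite F W := Module.finite_of_finrank_pos (by rw [hW]; norm_num)
  set B : Submodule F (Module.End F W) := Submodule.span F (Set.range ρ) with hB
  have hmem : ∀ g, ρ g ∈ B := fun g => Submodule.subset_span ⟨g, rfl⟩
  have hleft : ∀ g, ∀ x ∈ B, ρ g * x ∈ B := by
    intro g x hx
    induction hx using Submodule.span_induction with
    | mem y hy =>
      obtain ⟨h, rfl⟩ := hy
      rw [← map_mul]
      exact hmem _
    | zero => rw [mul_zero]; exact Submodule.zero_mem _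
    | add y z _ _ hy hz => rw [mul_add]; exact Submodule.add_mem _ hy hz
    | smul c y _ hy => rw [mul_smul_comm]; exact Submodule.smul_mem _ c hy
  have hright : ∀ g, ∀ x ∈ B, x * ρ g ∈ B := by
    intro g x hx
    induction hx using Submodule.span_induction with
    | mem y hy =>
      obtain ⟨h, rfl⟩ := hy
      rw [← map_mul]
      exact hmem _
    | zero => rw [zero_mul]; exact Submodule.zero_mem _
    | add y z _ _ hy hz => rw [add_mul]; exact Submodule.add_mem _ hy hz
    | smul c y _ hy => rw [smul_mul_assoc]; exact Submodule.smul_mem _ c hy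
  -- the basis `v₁, v₂ = a v₁`
  obtain ⟨a, ha⟩ := exists_not_mem_span hW ρ hirr v₁ hv₁0
  obtain ⟨bv, hbv0, hbv1⟩ := exists_basis_pair hW v₁ (ρ a v₁) hv₁0 ha
  have hext : ∀ x y : Module.End F W, x v₁ = y v₁ → x (ρ a v₁) = y (ρ a v₁) → x = y := by
    intro x y h0 h1
    refine bv.ext fun i => ?_
    fin_cases i
    · change x (bv 0) = y (bv 0)
      rw [hbv0]; exact h0
    · change x (bv 1) = y (bv 1)
      rw [hbv1]; exact h1
  -- `w = b v₂ ≠ 0`
  have hw0 : b (ρ a v₁) ≠ 0 := by
    intro h0
    apply hb0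
    refine hext _ _ ?_ ?_
    · rw [hbv₁, LinearMap.zero_apply]
    · rw [h0, LinearMap.zero_apply]
  obtain ⟨a', ha'⟩ := exists_not_mem_span hW ρ hirr _ hw0
  obtain ⟨bw, hbw0, hbw1⟩ := exists_basis_pair hW _ (ρ a' (b (ρ a v₁))) hw0 ha'
  -- every endomorphism killing `v₁` lies in `B`
  have hL : ∀ x : Module.End F W, x v₁ = 0 → x ∈ B := by
    intro x hx
    have hrepr := bw.sum_repr (x (ρ a v₁))
    rw [Fin.sum_univ_two, hbw0, hbw1] at hrepr
    have hxe : x = bw.repr (x (ρ a v₁)) 0 • b + bw.repr (x (ρ a v₁)) 1 • (ρ a' * b) := by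
      refine hext _ _ ?_ ?_
      · rw [hx, LinearMap.add_apply, LinearMap.smul_apply, LinearMap.smul_apply,
          Module.End.mul_apply, hbv₁, smul_zero, LinearMap.map_zero (ρ a'), smul_zero, add_zero]
      · rw [LinearMap.add_apply, LinearMap.smul_apply, LinearMap.smul_apply,
          Module.End.mul_apply, hrepr]
    rw [hxe]
    exact Submodule.add_mem _ (Submodule.smul_mem _ _ hbB)
      (Submodule.smul_mem _ _ (hleft a' b hbB))
  -- the general case
  rw [eq_top_iff]
  intro x _
  set x₂ : Module.End F W := bv.constr F ![x v₁, 0] with hx₂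
  have hx₂0 : x₂ v₁ = x v₁ := by
    rw [hx₂, ← hbv0, Module.Basis.constr_basis]; rfl
  have hx₂1 : x₂ (ρ a v₁) = 0 := by
    rw [hx₂, ← hbv1, Module.Basis.constr_basis]; rfl
  have h1 : x - x₂ ∈ B := hL _ (by rw [LinearMap.sub_apply, hx₂0, sub_self])
  have h2 : x₂ * ρ a ∈ B := hL _ (by rw [Module.End.mul_apply, hx₂1])
  have h3 : x₂ ∈ B := by
    have := hright a⁻¹ _ h2
    rwa [mul_assoc, ← map_mul, mul_inv_cancel, map_one, mul_one] at this
  have : x = (x - x₂) + x₂ := by abel
  rw [this]
  exact Submodule.add_mem _ h1 h3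

/-- **Burnside in dimension two, over any field**, from an involution `c` with
`ρ c ≠ 1` and `ρ c ≠ -1` (e.g. a complex conjugation, `det (ρ c) = -1`). -/
theorem burnside_two_of_invol (hW : Module.finrank F W = 2) (ρ : G →* Module.End F W)
    (hirr : ∀ U : Submodule F W, (∀ g, ∀ x ∈ U, ρ g x ∈ U) → U = ⊥ ∨ U = ⊤)
    (c : G) (hc : c * c = 1) (h1 : ρ c ≠ 1) (h2 : ρ c ≠ -1) :
    Submodule.span F (Set.range ρ) = ⊤ := by
  have hcc : ρ c * ρ c = 1 := by rw [← map_mul, hc, map_one]
  have hmem : ∀ g, ρ g ∈ Submodule.span F (Set.range ρ) := fun g => Submodule.subset_span ⟨g, rfl⟩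
  have hone : (1 : Module.End F W) ∈ Submodule.span F (Set.range ρ) := by
    have := hmem 1
    rwa [map_one] at this
  -- `b = 1 + ρ c` kills the image of `1 - ρ c ≠ 0`
  have hb0 : (1 : Module.End F W) + ρ c ≠ 0 := by
    intro h
    exact h2 (eq_neg_of_add_eq_zero_right h)
  have hd0 : (1 : Module.End F W) - ρ c ≠ 0 := by
    intro h
    exact h1 (sub_eq_zero.mp h).symm
  obtain ⟨w, hw⟩ : ∃ w : W, ((1 : Module.End F W) - ρ c) w ≠ 0 := by
    by_contra hcon
    simp only [not_exists, not_not] at hcon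
    exact hd0 (LinearMap.ext fun w => by rw [hcon w, LinearMap.zero_apply])
  refine burnside_two_of_ker hW ρ hirr (1 + ρ c)
    (Submodule.add_mem _ hone (hmem c)) hb0 _ hw ?_
  have e : ((1 : Module.End F W) + ρ c) * (1 - ρ c) = 0 := by
    rw [add_mul, mul_sub, mul_sub, one_mul, one_mul, mul_one, hcc]
    abel
  rw [← Module.End.mul_apply, e, LinearMap.zero_apply]

end BurnsideKer

end Fermat.Agent.S31x.H16
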